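import Mathlib
import Fermat.Prelude.Def_ModularCurve_X0
import Fermat.Prelude.Def_ModularCurve_LaurentCoeff
import Fermat.Prelude.Thm_ModularCurve_coeffMap_qExpand
import Fermat.Prelude.Def_ModularCurve_X0ModL

/-!
# Program G, package `G/Conj`: the model-independent (formal) part of the Kronecker congruence

* `gcjfRot ζ` : the rotation `x ↦ ζ x` of Laurent series over any commutative ring;
* `gcjf_exists_qExpand_eq_prod` : `∏_{i<ℓ} u(ζ^i x)` is a series in `x^ℓ`;
* `gcjf_coeffMap_eq_frobenius` : its reduction modulo a prime over `ℓ` is `ū^φ`;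
* `gcjf_norm_eq_prod` : norm = product over a full set of embeddings into any field.
-/

set_option autoImplicit false

noncomputable section

namespace Fermat.Agent.G

open ModularCurve

/-! ### rotation of Laurent series -/

section Rot

variable {R : Type*} [CommRing R]

/-- the underlying function of the rotation `x ↦ ζ x` -/
def gcjfRotFun (ζ : Rˣ) (f : LaurentSeries R) : LaurentSeries R where
  coeff m := ((ζ ^ m : Rˣ) : R) * f.coeff m
  isPWO_support' := f.isPWO_support.mono fun m hm => by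
    rw [HahnSeries.mem_support]
    exact right_ne_zero_of_mul hm

@[simp] theorem gcjfRotFun_coeff (ζ : Rˣ) (f : LaurentSeries R) (m : ℤ) :
    (gcjfRotFun ζ f).coeff m = ((ζ ^ m : Rˣ) : R) * f.coeff m := rfl

theorem gcjfRotFun_mem_support (ζ : Rˣ) (f : LaurentSeries R) (m : ℤ) :
    m ∈ (gcjfRotFun ζ f).support ↔ m ∈ f.support := by
  rw [HahnSeries.mem_support, HahnSeries.mem_support, gcjfRotFun_coeff]
  exact not_congr (Units.mul_right_eq_zero (ζ ^ m))

/-- the rotation `x ↦ ζ x` of Laurent series: the coefficient of `x^m` is multiplied by `ζ^m` -/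
def gcjfRot (ζ : Rˣ) : LaurentSeries R →+* LaurentSeries R where
  toFun := gcjfRotFun ζ
  map_one' := by
    ext a
    rw [gcjfRotFun_coeff, HahnSeries.coeff_one]
    split_ifs with h
    · subst h; simp
    · simp
  map_mul' x y := by
    ext a
    rw [gcjfRotFun_coeff, HahnSeries.coeff_mul, HahnSeries.coeff_mul, Finset.mul_sum]
    refine Finset.sum_congr ?_ ?_
    · ext ij
      simp only [Finset.mem_antidiagonal, gcjfRotFun_mem_support]
    · intro ij hij
      rw [Finset.mem_antidiagonal] at hij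
      rw [gcjfRotFun_coeff, gcjfRotFun_coeff, ← hij.2.2, zpow_add, Units.val_mul]
      ring
  map_zero' := by
    ext a
    simp
  map_add' x y := by
    ext a
    simp [mul_add]

@[simp] theorem gcjfRot_coeff (ζ : Rˣ) (f : LaurentSeries R) (m : ℤ) :
    (gcjfRot ζ f).coeff m = ((ζ ^ m : Rˣ) : R) * f.coeff m := rfl

theorem gcjfRot_one (f : LaurentSeries R) : gcjfRot (1 : Rˣ) f = f := by
  ext m
  simp

theorem gcjfRot_mul (ζ ξ : Rˣ) (f : LaurentSeries R) :
    gcjfRot (ζ * ξ) f = gcjfRot ζ (gcjfRot ξ f) := by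
  ext m
  rw [gcjfRot_coeff, gcjfRot_coeff, gcjfRot_coeff, mul_zpow, Units.val_mul, mul_assoc]

theorem gcjfRot_coeffMap {S : Type*} [CommRing S] (π : R →+* S) (ζ : Rˣ) (f : LaurentSeries R) :
    coeffMap π (gcjfRot ζ f) = gcjfRot (Units.map (π : R →* S) ζ) (coeffMap π f) := by
  ext m
  rw [coeffMap_coeff, gcjfRot_coeff, gcjfRot_coeff, coeffMap_coeff, map_mul, ← map_zpow]
  rfl

/-- a series in `x^ℓ` is invariant under `x ↦ ζ x` when `ζ^ℓ = 1` -/
theorem gcjfRot_qExpand {ℓ : ℕ} [NeZero ℓ] {ζ : Rˣ} (hζ : ζ ^ ℓ = 1) (V : LaurentSeries R) :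
    gcjfRot ζ (qExpand R ℓ V) = qExpand R ℓ V := by
  ext m
  rw [gcjfRot_coeff]
  by_cases hm : (ℓ : ℤ) ∣ m
  · obtain ⟨k, rfl⟩ := hm
    rw [zpow_mul, zpow_natCast, hζ, one_zpow, Units.val_one, one_mul]
  · rw [qExpand_coeff_of_not_dvd ℓ V hm, mul_zero]

/-- conversely, over a domain a series invariant under `x ↦ ζ x`, `ζ` a primitive `ℓ`-th root of
unity, is a series in `x^ℓ` -/
theorem gcjf_exists_qExpand_eq_of_rot_eq [IsDomain R] {ℓ : ℕ} [NeZero ℓ] {ζ : Rˣ}
    (hζ : IsPrimitiveRoot ζ ℓ) {P : LaurentSeries R} (hP : gcjfRot ζ P = P) :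
    ∃ V : LaurentSeries R, qExpand R ℓ V = P := by
  have hℓpos : (0 : ℤ) < ℓ := by exact_mod_cast Nat.pos_of_ne_zero (NeZero.ne ℓ)
  -- coefficients at exponents prime to `ℓ` vanish
  have hvanish : ∀ m : ℤ, ¬ (ℓ : ℤ) ∣ m → P.coeff m = 0 := by
    intro m hm
    have h1 : ((ζ ^ m : Rˣ) : R) * P.coeff m = P.coeff m := by
      conv_rhs => rw [← hP]
      rfl
    have h2 : (((ζ ^ m : Rˣ) : R) - 1) * P.coeff m = 0 := by rw [sub_mul, h1, one_mul, sub_self]
    rcases mul_eq_zero.1 h2 with h3 | h3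
    · exfalso
      apply hm
      rw [sub_eq_zero] at h3
      have h4 : ζ ^ m = 1 := Units.ext (by rw [h3, Units.val_one])
      exact (hζ.zpow_eq_one_iff_dvd m).1 h4
    · exact h3
  -- the candidate
  have hbdd : BddBelow (Function.support fun k : ℤ => P.coeff ((ℓ : ℤ) * k)) := by
    rcases eq_or_ne P 0 with rfl | hP0
    · simp
    · refine ⟨min P.order 0, fun k hk => ?_⟩
      by_contra hlt
      rw [not_le] at hlt
      apply hk
      apply HahnSeries.coeff_eq_zero_of_lt_order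
      have hk0 : k < 0 := lt_of_lt_of_le hlt (min_le_right _ _)
      have hkP : k < P.order := lt_of_lt_of_le hlt (min_le_left _ _)
      have : (ℓ : ℤ) * k ≤ k := by nlinarith
      omega
  refine ⟨HahnSeries.ofSuppBddBelow _ hbdd, ?_⟩
  ext m
  by_cases hm : (ℓ : ℤ) ∣ m
  · obtain ⟨k, rfl⟩ := hm
    rw [qExpand_coeff_mul]
    rfl
  · rw [qExpand_coeff_of_not_dvd ℓ _ hm, hvanish m hm]

end Rot

/-! ### the product of the rotated series -/

section Prod

variable {R : Type*} [CommRing R]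

/-- `∏_{i<ℓ} u(ζ^i x)` -/
def gcjfProd (ℓ : ℕ) (ζ : Rˣ) (u : LaurentSeries R) : LaurentSeries R :=
  ∏ i ∈ Finset.range ℓ, gcjfRot (ζ ^ i) u

theorem gcjfRot_gcjfProd {ℓ : ℕ} [NeZero ℓ] {ζ : Rˣ} (hζ : ζ ^ ℓ = 1) (u : LaurentSeries R) :
    gcjfRot ζ (gcjfProd ℓ ζ u) = gcjfProd ℓ ζ u := by
  obtain ⟨m, rfl⟩ : ∃ m, ℓ = m + 1 := Nat.exists_eq_succ_of_ne_zero (NeZero.ne ℓ)
  have h1 : gcjfRot ζ (gcjfProd (m + 1) ζ u) =
      ∏ i ∈ Finset.range (m + 1), gcjfRot (ζ ^ (i + 1)) u := by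
    rw [gcjfProd, map_prod]
    refine Finset.prod_congr rfl fun i _ => ?_
    rw [← gcjfRot_mul, pow_succ']
  rw [h1, Finset.prod_range_succ, hζ, gcjfProd, Finset.prod_range_succ', pow_zero]

/-- (F1) the product of the `ℓ` rotated series is a series in `x^ℓ` -/
theorem gcjf_exists_qExpand_eq_prod [IsDomain R] {ℓ : ℕ} [NeZero ℓ] {ζ : Rˣ}
    (hζ : IsPrimitiveRoot ζ ℓ) (u : LaurentSeries R) :
    ∃ V : LaurentSeries R, qExpand R ℓ V = gcjfProd ℓ ζ u :=
  gcjf_exists_qExpand_eq_of_rot_eq hζ (gcjfRot_gcjfProd hζ.pow_eq_one u)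

/-- modulo a prime where `ζ ≡ 1` the product is the `ℓ`-th power -/
theorem gcjf_coeffMap_gcjfProd {S : Type*} [CommRing S] (π : R →+* S) (ℓ : ℕ) {ζ : Rˣ}
    (hπ : π (ζ : R) = 1) (u : LaurentSeries R) :
    coeffMap π (gcjfProd ℓ ζ u) = coeffMap π u ^ ℓ := by
  have h1 : Units.map (π : R →* S) ζ = 1 := Units.ext hπ
  rw [gcjfProd, map_prod]
  have h2 : ∀ i ∈ Finset.range ℓ, coeffMap π (gcjfRot (ζ ^ i) u) = coeffMap π u := by
    intro i _
    rw [gcjfRot_coeffMap, map_pow, h1, one_pow, gcjfRot_one]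
  rw [Finset.prod_congr rfl h2, Finset.prod_const, Finset.card_range]

end Prod

/-! ### Frobenius on Laurent series in characteristic `ℓ` -/

section Frobenius

open PowerSeries in
/-- in characteristic `ℓ`, `p^ℓ = (φ p)(X^ℓ)` for power series -/
theorem gcjf_powerSeries_pow_char (k : Type*) [CommRing k] (ℓ : ℕ) [Fact ℓ.Prime] [CharP k ℓ]
    (p : PowerSeries k) :
    p ^ ℓ = (p.map (frobenius k ℓ)).expand ℓ (Fact.out : ℓ.Prime).ne_zero := by
  have hℓ : ℓ.Prime := Fact.out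
  ext m
  rw [PowerSeries.coeff_expand]
  have h1 : coeff m (p ^ ℓ) = coeff m ((trunc (m + 1) p : PowerSeries k) ^ ℓ) := by
    have := congrArg (fun q : Polynomial k => q.coeff m) (trunc_trunc_pow p (m + 1) ℓ)
    simp only [coeff_trunc, if_pos (Nat.lt_succ_self m)] at this
    exact this.symm
  rw [h1, ← Polynomial.coe_pow, Polynomial.coeff_coe, ← Polynomial.map_frobenius_expand,
    Polynomial.coeff_map, Polynomial.coeff_expand hℓ.pos]
  split_ifs with h
  · rw [coeff_map, coeff_trunc, if_pos]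
    exact lt_of_le_of_lt (Nat.div_le_self m ℓ) (Nat.lt_succ_self m)
  · rw [map_zero]

variable {R : Type*} [CommRing R]

theorem gcjf_qExpand_ofPowerSeries (ℓ : ℕ) [NeZero ℓ] (P : PowerSeries R) :
    qExpand R ℓ (HahnSeries.ofPowerSeries ℤ R P) =
      HahnSeries.ofPowerSeries ℤ R (P.expand ℓ (NeZero.ne ℓ)) := by
  have hℓpos : (0 : ℤ) < ℓ := by exact_mod_cast Nat.pos_of_ne_zero (NeZero.ne ℓ)
  ext m
  rcases lt_or_ge m 0 with hm | hm
  · rw [ofPowerSeries_coeff_of_neg _ hm]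
    by_cases hd : (ℓ : ℤ) ∣ m
    · obtain ⟨c, rfl⟩ := hd
      rw [qExpand_coeff_mul]
      apply ofPowerSeries_coeff_of_neg
      by_contra hc
      rw [not_lt] at hc
      have := mul_nonneg hℓpos.le hc
      omega
    · exact qExpand_coeff_of_not_dvd ℓ _ hd
  · lift m to ℕ using hm
    rw [HahnSeries.ofPowerSeries_apply_coeff, PowerSeries.coeff_expand]
    split_ifs with h
    · obtain ⟨c, rfl⟩ := h
      rw [Nat.mul_div_cancel_left c (Nat.pos_of_ne_zero (NeZero.ne ℓ)), Nat.cast_mul,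
        qExpand_coeff_mul, HahnSeries.ofPowerSeries_apply_coeff]
    · apply qExpand_coeff_of_not_dvd
      exact_mod_cast h

/-- (FROB) in characteristic `ℓ`: `w^ℓ = (φ w)(x^ℓ)`, `φ` the coefficientwise Frobenius -/
theorem gcjf_pow_char (k : Type*) [CommRing k] (ℓ : ℕ) [Fact ℓ.Prime] [CharP k ℓ]
    (w : LaurentSeries k) :
    haveI : NeZero ℓ := ⟨(Fact.out : ℓ.Prime).ne_zero⟩
    w ^ ℓ = qExpand k ℓ (coeffMap (frobenius k ℓ) w) := by
  have : NeZero ℓ := ⟨(Fact.out : ℓ.Prime).ne_zero⟩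
  conv_lhs => rw [← LaurentSeries.single_order_mul_powerSeriesPart w]
  conv_rhs => rw [← LaurentSeries.single_order_mul_powerSeriesPart w]
  rw [mul_pow, map_mul, map_mul, coeffMap_single, qExpand_single, HahnSeries.single_pow,
    coeffMap_ofPowerSeries, gcjf_qExpand_ofPowerSeries, ← gcjf_powerSeries_pow_char,
    map_one (frobenius k ℓ), one_pow, nsmul_eq_mul,
    map_pow (HahnSeries.ofPowerSeries ℤ k)]

end Frobenius

/-! ### the formal Kronecker congruence -/

section Congruence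

variable {R k : Type*} [CommRing R] [CommRing k]

/-- an `ℓ`-th root of unity is `1` in a reduced ring of characteristic `ℓ` -/
theorem gcjf_eq_one_of_pow_eq_one (ℓ : ℕ) [Fact ℓ.Prime] [CharP k ℓ] [IsReduced k] {z : k}
    (hz : z ^ ℓ = 1) : z = 1 := by
  have h1 : (z - 1) ^ ℓ = 0 := by rw [sub_pow_char, hz, one_pow, sub_self]
  exact sub_eq_zero.1 (IsReduced.eq_zero _ ⟨ℓ, h1⟩)

/-- (F2) THE FORMAL CONGRUENCE: if `V(x^ℓ) = ∏_{i<ℓ} u(ζ^i x)` and `π ζ = 1`, `char k = ℓ`,
then `π V = φ (π u)`, `φ` the coefficientwise Frobenius. -/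
theorem gcjf_coeffMap_eq_frobenius (π : R →+* k) (ℓ : ℕ) [Fact ℓ.Prime] [CharP k ℓ] {ζ : Rˣ}
    (hπ : π (ζ : R) = 1) (u V : LaurentSeries R)
    (hV : haveI : NeZero ℓ := ⟨(Fact.out : ℓ.Prime).ne_zero⟩
      qExpand R ℓ V = gcjfProd ℓ ζ u) :
    coeffMap π V = coeffMap (frobenius k ℓ) (coeffMap π u) := by
  have : NeZero ℓ := ⟨(Fact.out : ℓ.Prime).ne_zero⟩
  apply qExpand_injective ℓ
  rw [← coeffMap_qExpand, hV, gcjf_coeffMap_gcjfProd π ℓ hπ, gcjf_pow_char]

/-- the same with an abstract Frobenius `φ x = x^ℓ` -/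
theorem gcjf_coeffMap_eq_frobenius' (π : R →+* k) (ℓ : ℕ) [Fact ℓ.Prime] [CharP k ℓ] {ζ : Rˣ}
    (hπ : π (ζ : R) = 1) (φ : k →+* k) (hφ : ∀ x, φ x = x ^ ℓ) (u V : LaurentSeries R)
    (hV : haveI : NeZero ℓ := ⟨(Fact.out : ℓ.Prime).ne_zero⟩
      qExpand R ℓ V = gcjfProd ℓ ζ u) :
    coeffMap π V = coeffMap φ (coeffMap π u) := by
  have hφ' : φ = frobenius k ℓ := RingHom.ext fun x => by rw [hφ, frobenius_def]
  rw [hφ']
  exact gcjf_coeffMap_eq_frobenius π ℓ hπ u V hV

/-- (F1)+(F2) packaged: over a domain `R` with a primitive `ℓ`-th root of unity `ζ` and a ring hom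
`π` to a reduced ring of characteristic `ℓ`: there is `V` with `V(x^ℓ) = ∏_{i<ℓ} u(ζ^i x)` and
`π V = φ (π u)`. -/
theorem gcjf_exists_congr [IsDomain R] (π : R →+* k) (ℓ : ℕ) [Fact ℓ.Prime] [CharP k ℓ]
    [IsReduced k] {ζ : Rˣ} (hζ : IsPrimitiveRoot ζ ℓ) (φ : k →+* k) (hφ : ∀ x, φ x = x ^ ℓ)
    (u : LaurentSeries R) :
    haveI : NeZero ℓ := ⟨(Fact.out : ℓ.Prime).ne_zero⟩
    ∃ V : LaurentSeries R, qExpand R ℓ V = gcjfProd ℓ ζ u ∧
      coeffMap π V = coeffMap φ (coeffMap π u) := by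
  have : NeZero ℓ := ⟨(Fact.out : ℓ.Prime).ne_zero⟩
  obtain ⟨V, hV⟩ := gcjf_exists_qExpand_eq_prod hζ u
  have hπ : π (ζ : R) = 1 := by
    apply gcjf_eq_one_of_pow_eq_one ℓ
    rw [← map_pow, ← Units.val_pow_eq_pow_val, hζ.pow_eq_one, Units.val_one, map_one]
  exact ⟨V, hV, gcjf_coeffMap_eq_frobenius' π ℓ hπ φ hφ u V hV⟩

end Congruence

/-! ### roots of unity in a valuation subring of an algebraically closed field -/

section Roots

/-- a valuation subring of an algebraically closed field of characteristic prime to `n` contains a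
primitive `n`-th root of unity (as a unit) -/
theorem gcjf_exists_primitiveRoot {L : Type*} [Field L] [IsAlgClosed L] (A : ValuationSubring L)
    (n : ℕ) [NeZero (n : L)] : ∃ ζ : Aˣ, IsPrimitiveRoot ζ n := by
  have hn0 : n ≠ 0 := fun h => NeZero.ne (n : L) (by rw [h, Nat.cast_zero])
  obtain ⟨ζ₀, hζ₀⟩ := HasEnoughRootsOfUnity.exists_primitiveRoot L n
  have hpow : ζ₀ ^ n = 1 := hζ₀.pow_eq_one
  have hmem : ζ₀ ∈ A := by
    rcases A.mem_or_inv_mem ζ₀ with h | h
    · exact h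
    · have h1 : ζ₀ = ζ₀⁻¹ ^ (n - 1) := by
        have hζ0 : ζ₀ ≠ 0 := hζ₀.ne_zero hn0
        rw [inv_pow]
        apply eq_inv_of_mul_eq_one_left
        rw [← pow_succ', Nat.sub_add_cancel (Nat.one_le_iff_ne_zero.2 hn0), hpow]
      rw [h1]
      exact pow_mem h _
  let z : A := ⟨ζ₀, hmem⟩
  have hz : z ^ n = 1 := Subtype.ext (by simpa using hpow)
  have hzu : IsUnit z := IsUnit.of_pow_eq_one hz hn0
  refine ⟨hzu.unit, ?_⟩
  have hinj : Function.Injective ((A.subtype : A →* L).comp (Units.coeHom A)) :=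
    fun a b hab => Units.ext (Subtype.ext hab)
  refine IsPrimitiveRoot.of_map_of_injective (f := (A.subtype : A →* L).comp (Units.coeHom A))
    ?_ hinj
  exact hζ₀

end Roots

/-! ### norm = product over a full set of embeddings into an arbitrary field -/

section Norm

/-- (N1) if `σ_i : L → Ω` are `[L : K]` pairwise distinct `K`-embeddings into ANY field `Ω`, the
norm is the product of the conjugates. -/
theorem gcjf_norm_eq_prod {K L Ω : Type*} [Field K] [Field L] [Field Ω] [Algebra K L]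
    [Algebra K Ω] [FiniteDimensional K L] [Algebra.IsSeparable K L] {ι : Type*} [Fintype ι]
    (σ : ι → (L →ₐ[K] Ω)) (hinj : Function.Injective σ)
    (hcard : Fintype.card ι = Module.finrank K L) (x : L) :
    algebraMap K Ω (Algebra.norm K x) = ∏ i, σ i x := by
  classical
  let E := AlgebraicClosure Ω
  let τ : ι → (L →ₐ[K] E) := fun i => (IsScalarTower.toAlgHom K Ω E).comp (σ i)
  have hτinj : Function.Injective τ := by
    intro i j hij
    apply hinj
    ext y
    have := DFunLike.congr_fun hij y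
    exact (algebraMap Ω E).injective this
  have hτbij : Function.Bijective τ := by
    rw [Fintype.bijective_iff_injective_and_card]
    exact ⟨hτinj, by rw [hcard, AlgHom.card K L E]⟩
  apply (algebraMap Ω E).injective
  rw [← IsScalarTower.algebraMap_apply, Algebra.norm_eq_prod_embeddings K E x, map_prod]
  exact (Fintype.prod_bijective τ hτbij _ _ fun i => rfl).symm

end Norm

end Fermat.Agent.G
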