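import Mathlib
import Fermat.Agent.G.Defs
import Fermat.Agent.S24.Degree
import Fermat.Agent.S24.CountPsi

/-!
# Program G, package G/Conj : the degree of `α : F_ℚ̄(N) → F_ℚ̄(N ℓ)`

`gcjd_finrank` : for a prime `ℓ ∤ N`, `[F_ℚ̄(N ℓ) : F_ℚ̄(N)] = ℓ + 1` along `α = heckeAlphaBar`.

Proof: `[F(M) : ℚ̄(j)] = [SL₂(ℤ) : Γ₀(M)] = ψ(M)` (S24 `finrank_jBar`, `index_Gamma0`) at `M = N`
and `M = N ℓ`, `ψ(N ℓ) = ψ(N) (ℓ + 1)`, the tower law through `ℚ̄(j)`, and `α j = j`.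
-/

set_option autoImplicit false
set_option linter.unusedSectionVars false
set_option linter.unusedVariables false
set_option linter.style.haveILetI false

noncomputable section

namespace Fermat.Agent.G

open ModularCurve AlgebraicCurve IntermediateField Fermat.Agent.S24

/-- abstract tower computation: `φ : F →ₐ[K] F'`, `φ t = t'`; then
`[F : K(t)] * [F' : F] = [F' : K(t')]` (degree of `F'` over `F` along `φ`). -/
theorem gcjd_finrank_tower {K F F' : Type*} [Field K] [Field F] [Field F'] [Algebra K F]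
    [Algebra K F'] (φ : F →ₐ[K] F') (t : F) (t' : F') (ht : φ t = t') :
    letI := algebraAlong φ
    Module.finrank K⟮t⟯ F * Module.finrank F F' = Module.finrank K⟮t'⟯ F' := by
  letI := algebraAlong φ
  letI : Algebra K⟮t⟯ F' := ((algebraMap F F').comp (algebraMap K⟮t⟯ F)).toAlgebra
  haveI : IsScalarTower K⟮t⟯ F F' := IsScalarTower.of_algebraMap_eq (fun _ => rfl)
  rw [Module.finrank_mul_finrank K⟮t⟯ F F']
  have hmap : (K⟮t⟯).map φ = K⟮t'⟯ := by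
    rw [IntermediateField.adjoin_map, Set.image_singleton, ht]
  let i : K⟮t⟯ ≃+* K⟮t'⟯ :=
    ((IntermediateField.equivMap K⟮t⟯ φ).trans (IntermediateField.equivOfEq hmap)).toRingEquiv
  refine Algebra.finrank_eq_of_equiv_equiv i (RingEquiv.refl F') ?_
  ext x
  rfl

theorem gcjd_alpha_jBar (N ℓ : ℕ) [NeZero N] [NeZero ℓ] :
    heckeAlphaBar QBar N ℓ (jBar N) = jBar (N * ℓ) :=
  Subtype.ext rfl

/-- `ψ(N ℓ) = ψ(N) (ℓ + 1)` for a prime `ℓ ∤ N`. -/
theorem gcjd_dedekindPsi_mul_prime (N : ℕ) {ℓ : ℕ} (hℓ : ℓ.Prime) (hℓN : ¬ ℓ ∣ N) :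
    dedekindPsi (N * ℓ) = dedekindPsi N * (ℓ + 1) := by
  have hcop : N.Coprime ℓ := ((Nat.Prime.coprime_iff_not_dvd hℓ).mpr hℓN).symm
  rw [dedekindPsi_mul hcop]
  have := dedekindPsi_prime_pow hℓ (k := 1) one_pos
  simp only [pow_one, Nat.sub_self, pow_zero] at this
  rw [this]

/-- `[F_ℚ̄(M) : ℚ̄(j)] = ψ(M)`. -/
theorem gcjd_finrank_jBar (M : ℕ) [NeZero M] :
    Module.finrank QBar⟮jBar M⟯ (modularFunctionFieldBar M) = dedekindPsi M := by
  rw [finrank_jBar, ← index_Gamma0]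
  rfl

/-- (DEG) `[F_Q̄(N ℓ) : F_Q̄(N)] = ℓ + 1` along `α`, for a prime `ℓ ∤ N`. -/
theorem gcjd_finrank (N : ℕ) [NeZero N] {ℓ : ℕ} [Fact ℓ.Prime] (hℓN : ¬ ℓ ∣ N) :
    haveI : NeZero ℓ := ⟨(Fact.out : ℓ.Prime).ne_zero⟩
    letI := algebraAlong (heckeAlphaBar (AlgebraicClosure ℚ) N ℓ)
    Module.finrank (modularFunctionFieldBar N) (modularFunctionFieldBar (N * ℓ)) = ℓ + 1 := by
  haveI : NeZero ℓ := ⟨(Fact.out : ℓ.Prime).ne_zero⟩
  have hℓ : ℓ.Prime := Fact.out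
  have htower := gcjd_finrank_tower (heckeAlphaBar QBar N ℓ) (jBar N) (jBar (N * ℓ))
    (gcjd_alpha_jBar N ℓ)
  rw [gcjd_finrank_jBar N, gcjd_finrank_jBar (N * ℓ), gcjd_dedekindPsi_mul_prime N hℓ hℓN] at htower
  have hpos : 0 < dedekindPsi N := by
    rw [← gcjd_finrank_jBar N]
    haveI := finiteDimensional_jBar N
    exact Module.finrank_pos
  exact Nat.eq_of_mul_eq_mul_left hpos htower

end Fermat.Agent.G
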