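import Mathlib
import Fermat.Agent.G.Defs
import Fermat.Agent.S24.Bridge
import Fermat.Prelude.Thm_ModularCurve_coeffMap_qExpand

/-!
# Program G, package `G/Conj`: leaf (L2), compatibility of the analytic bridge `toHol` with the
degeneracy maps `α`, `β` (prefix `gcjh_`)

* `gcj_alpha_mem_RBar`, `gcj_beta_mem_RBar` : `α`, `β` map `RBar N` into `RBar (N ℓ)`;
* `gcj_toHol_alpha` : `α x` is the same holomorphic function as `x`;
* `gcj_toHol_beta` : `(β x)(τ) = x(ℓ τ)`.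
-/

set_option autoImplicit false
set_option linter.unusedSectionVars false
set_option linter.unusedVariables false

noncomputable section

namespace Fermat.Agent.G

open ModularCurve AlgebraicCurve Fermat.Agent.S24 UpperHalfPlane
open scoped MatrixGroups Real

local notation "Qb" => AlgebraicClosure ℚ

variable (N ℓ : ℕ) [NeZero N] [NeZero ℓ]

/-- `α (j(q^d)) = j(q^d)` -/
theorem gcjh_alpha_jdBar (d : ℕ) [NeZero d] (hd : d ∣ N) :
    heckeAlphaBar Qb N ℓ (jdBar N d hd) = jdBar (N * ℓ) d (Dvd.dvd.mul_right hd ℓ) :=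
  Subtype.ext (by rw [coe_heckeAlphaBar, coe_jdBar, coe_jdBar])

/-- `β (j(q^d)) = j(q^(ℓ d))` -/
theorem gcjh_beta_jdBar (d : ℕ) [NeZero d] (hd : d ∣ N) :
    heckeBetaBar Qb N ℓ (jdBar N d hd) =
      jdBar (N * ℓ) (ℓ * d) (by rw [mul_comm N ℓ]; exact mul_dvd_mul_left ℓ hd) := by
  apply Subtype.ext
  rw [coe_heckeBetaBar, coe_jdBar, coe_jdBar, coeffEmb, ModularCurve.coeffMap_qExpand,
    ModularCurve.coeffMap_qExpand, qExpand_qExpand]

/-- a `ℚ̄`-algebra hom `F(N) → F(N ℓ)` mapping the generators `j(q^d)` into `RBar (N ℓ)` maps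
`RBar N` into `RBar (N ℓ)` -/
theorem gcjh_mem_RBar_of_gen
    (φ : modularFunctionFieldBar N →ₐ[Qb] modularFunctionFieldBar (N * ℓ))
    (hφ : ∀ y ∈ jdSet N, φ y ∈ RBar (N * ℓ)) (x : RBar N) :
    φ (x : modularFunctionFieldBar N) ∈ RBar (N * ℓ) := by
  have h1 : (RBar N).map φ ≤ RBar (N * ℓ) := by
    unfold RBar
    rw [AlgHom.map_adjoin]
    refine Algebra.adjoin_le ?_
    rintro _ ⟨y, hy, rfl⟩
    exact hφ y hy
  exact h1 ⟨x, x.2, rfl⟩

/-- (L2a) `α` maps `RBar N` into `RBar (N ℓ)`. -/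
theorem gcj_alpha_mem_RBar (x : RBar N) :
    heckeAlphaBar Qb N ℓ (x : modularFunctionFieldBar N) ∈ RBar (N * ℓ) := by
  refine gcjh_mem_RBar_of_gen N ℓ (heckeAlphaBar Qb N ℓ) ?_ x
  rintro y ⟨d, hne, hd, rfl⟩
  rw [gcjh_alpha_jdBar]
  exact jdBar_mem_RBar (N * ℓ) d _

/-- (L2b) `β` maps `RBar N` into `RBar (N ℓ)`. -/
theorem gcj_beta_mem_RBar (x : RBar N) :
    heckeBetaBar Qb N ℓ (x : modularFunctionFieldBar N) ∈ RBar (N * ℓ) := by
  refine gcjh_mem_RBar_of_gen N ℓ (heckeBetaBar Qb N ℓ) ?_ x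
  rintro y ⟨d, hne, hd, rfl⟩
  rw [gcjh_beta_jdBar]
  exact jdBar_mem_RBar (N * ℓ) (ℓ * d) _

/-- (L2c) `α x` is the same holomorphic function as `x`. -/
theorem gcj_toHol_alpha (x : RBar N) :
    toHol (N * ℓ) ⟨_, gcj_alpha_mem_RBar N ℓ x⟩ = toHol N x := by
  refine bridge_hol_ext (hasCuspExp_toHol (N * ℓ) _) ?_
  show HasCuspExp 1 (toHol N x : ℍ → ℂ)
    (coeffMap iotaBar ((heckeAlphaBar Qb N ℓ (x : modularFunctionFieldBar N) :
      modularFunctionFieldBar (N * ℓ)) : LaurentSeries QBar))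
  rw [coe_heckeAlphaBar]
  exact hasCuspExp_toHol N x

/-- the holomorphic function `τ ↦ x(ℓ τ)` -/
def gcjhScale (x : RBar N) : HolRing :=
  HolRing.compGL (Fermat.Agent.S23.utGL ℓ 0 1)
    (Fermat.Agent.S23.det_utGL_pos (NeZero.ne ℓ) one_ne_zero 0) (toHol N x)

theorem gcjhScale_apply (x : RBar N) (τ : ℍ) :
    (gcjhScale N ℓ x : ℍ → ℂ) τ = (toHol N x : ℍ → ℂ) (Fermat.Agent.S23.utGL ℓ 0 1 • τ) := rfl

/-- `x(ℓ τ)` has the expansion `x(q^ℓ)` -/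
theorem gcjh_hasCuspExp_scale (x : RBar N) :
    HasCuspExp 1 (gcjhScale N ℓ x : ℍ → ℂ)
      (qExpand ℂ ℓ (coeffMap iotaBar ((x : modularFunctionFieldBar N) : LaurentSeries QBar))) := by
  have h := HasCuspExp.comp_affine (a := ℓ) (d := 1) (NeZero.ne ℓ) one_ne_zero 0
    (Fermat.Agent.S23.utGL ℓ 0 1)
    (fun τ => Fermat.Agent.S23.coe_utGL_smul (NeZero.ne ℓ) one_ne_zero 0 τ)
    (hasCuspExp_toHol N x) 1 (by simp)
  rw [bridge_rotLaurent_one] at h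
  exact h

/-- `β x` is the holomorphic function `τ ↦ x(ℓ τ)` -/
theorem gcjh_toHol_beta_eq (x : RBar N) :
    toHol (N * ℓ) ⟨_, gcj_beta_mem_RBar N ℓ x⟩ = gcjhScale N ℓ x := by
  refine bridge_hol_ext (hasCuspExp_toHol (N * ℓ) _) ?_
  show HasCuspExp 1 (gcjhScale N ℓ x : ℍ → ℂ)
    (coeffMap iotaBar ((heckeBetaBar Qb N ℓ (x : modularFunctionFieldBar N) :
      modularFunctionFieldBar (N * ℓ)) : LaurentSeries QBar))
  rw [coe_heckeBetaBar, ModularCurve.coeffMap_qExpand]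
  exact gcjh_hasCuspExp_scale N ℓ x

/-- (L2d) `(β x)(τ) = x(ℓ τ)`. -/
theorem gcj_toHol_beta (x : RBar N) (τ : ℍ) :
    (toHol (N * ℓ) ⟨_, gcj_beta_mem_RBar N ℓ x⟩ : ℍ → ℂ) τ =
      (toHol N x : ℍ → ℂ) (Fermat.Agent.S23.utGL ℓ 0 1 • τ) := by
  rw [gcjh_toHol_beta_eq]
  rfl

end Fermat.Agent.G
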