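import Mathlib
import Fermat.Agent.G.Defs
import Fermat.Agent.G.Conj.Formal
import Fermat.Agent.G.Conj.Hol
import Fermat.Agent.S24.Degree

/-!
# Program G, package G/Conj : (L3) the expansions of the conjugates of `α x`, `β x`
-/

set_option autoImplicit false
set_option linter.unusedSectionVars false
set_option linter.unusedVariables false

noncomputable section

namespace Fermat.Agent.G

open ModularCurve AlgebraicCurve Fermat.Agent.S24 UpperHalfPlane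
open scoped MatrixGroups Real

local notation "Qb" => AlgebraicClosure ℚ

variable (N ℓ : ℕ) [NeZero N] [NeZero ℓ]

/-- (L3a) for `ξ ∈ Γ₀(N)` the conjugate `ξ • (α x)` is `x` itself: expansion `x(s^(N ℓ))`. -/
theorem gcj_cuspHom_alpha (ξ : SL(2, ℤ)) (hξ : ξ ∈ CongruenceSubgroup.Gamma0 N) (x : RBar N) :
    cuspHom (N * ℓ) ξ ⟨_, gcj_alpha_mem_RBar N ℓ x⟩ =
      qExpand Qb (N * ℓ) (((x : modularFunctionFieldBar N)) : LaurentSeries Qb) := by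
  apply conj_cuspHom_eq
  rw [gcj_toHol_alpha, smul_toHol_of_mem_Gamma0 N ξ hξ x, coeffMap_qExpand]
  have h := (hasCuspExp_toHol N x).qExpand (N * ℓ)
  rwa [one_mul] at h

/-- the rotation over `ℂ` of the image of a series over `ℚ̄` -/
theorem gcje_rotLaurent_coeffMap (ζ : Qbˣ) (ζc : ℂˣ) (h : (ζc : ℂ) = iotaBar (ζ : Qb))
    (S : LaurentSeries Qb) :
    rotLaurent ζc (coeffMap iotaBar S) = coeffMap iotaBar (gcjfRot ζ S) := by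
  ext m
  rw [rotLaurent_coeff, coeffMap_coeff, coeffMap_coeff, gcjfRot_coeff, map_mul, h]
  congr 1
  rw [Units.val_zpow_eq_zpow_val, map_zpow₀]

/-- (L3b) the trivial conjugate of `β x`: expansion `x(s^(N ℓ ℓ))`. -/
theorem gcj_cuspHom_beta_one (x : RBar N) :
    cuspHom (N * ℓ) 1 ⟨_, gcj_beta_mem_RBar N ℓ x⟩ =
      qExpand Qb (N * ℓ * ℓ) (((x : modularFunctionFieldBar N)) : LaurentSeries Qb) := by
  apply conj_cuspHom_eq
  rw [one_smul, coeffMap_qExpand]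
  have hfun : ((toHol (N * ℓ) ⟨_, gcj_beta_mem_RBar N ℓ x⟩ : HolRing) : ℍ → ℂ) =
      fun τ => (toHol N x : ℍ → ℂ) (Fermat.Agent.S23.utGL ℓ 0 1 • τ) :=
    funext fun τ => gcj_toHol_beta N ℓ x τ
  rw [hfun]
  have hg' : ∀ τ : ℍ, ((Fermat.Agent.S23.utGL ℓ 0 1 • τ : ℍ) : ℂ) =
      ((ℓ : ℂ) * τ + ((0 : ℤ) : ℂ)) / ((1 : ℕ) : ℂ) := fun τ => by
    rw [Fermat.Agent.S23.coe_utGL_smul (NeZero.ne ℓ) one_ne_zero]
  have h1 := HasCuspExp.comp_affine (NeZero.ne ℓ) one_ne_zero 0 (Fermat.Agent.S23.utGL ℓ 0 1) hg'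
    (hasCuspExp_toHol N x) 1 (by simp)
  rw [bridge_rotLaurent_one] at h1
  have h2 := h1.qExpand (N * ℓ)
  rw [one_mul, qExpand_qExpand] at h2
  exact h2

/-- (L3c) the nontrivial conjugates of `β x`: if `diag(ℓ,1) ξ⁻¹ = γ' (1 b; 0 ℓ)` with
`γ' ∈ Γ₀(N)`, then `(ξ • β x)(τ) = x((τ + b)/ℓ)`, with expansion `x(ζ₀^b s^N)`. -/
theorem gcj_cuspHom_beta (ζ₀ : Qbˣ)
    (hζ₀ : iotaBar (ζ₀ : Qb) = Complex.exp (2 * π * Complex.I / ℓ))
    (ξ γ' : SL(2, ℤ)) (hγ' : γ' ∈ CongruenceSubgroup.Gamma0 N) (b : ℕ)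
    (hmat : Fermat.Agent.S23.utGL ℓ 0 1 * Matrix.SpecialLinearGroup.mapGL ℝ ξ⁻¹ =
      Matrix.SpecialLinearGroup.mapGL ℝ γ' * Fermat.Agent.S23.utGL 1 (b : ℤ) ℓ)
    (x : RBar N) :
    cuspHom (N * ℓ) ξ ⟨_, gcj_beta_mem_RBar N ℓ x⟩ =
      qExpand Qb N (gcjfRot (ζ₀ ^ b) (((x : modularFunctionFieldBar N)) : LaurentSeries Qb)) := by
  apply conj_cuspHom_eq
  rw [coeffMap_qExpand]
  have hfun : ((ξ • toHol (N * ℓ) ⟨_, gcj_beta_mem_RBar N ℓ x⟩ : HolRing) : ℍ → ℂ) =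
      fun τ => (toHol N x : ℍ → ℂ) (Fermat.Agent.S23.utGL 1 (b : ℤ) ℓ • τ) := by
    funext τ
    rw [HolRing.smul_apply, gcj_toHol_beta]
    have e1 : (Fermat.Agent.S23.utGL ℓ 0 1 • (ξ⁻¹ • τ) : ℍ) =
        (Fermat.Agent.S23.utGL ℓ 0 1 * Matrix.SpecialLinearGroup.mapGL ℝ ξ⁻¹) • τ := by
      rw [mul_smul]
      rfl
    rw [e1, hmat, mul_smul]
    have e2 : ((toHol N x : HolRing) : ℍ → ℂ)
        ((Matrix.SpecialLinearGroup.mapGL ℝ γ' : GL (Fin 2) ℝ) •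
          (Fermat.Agent.S23.utGL 1 (b : ℤ) ℓ • τ)) =
        ((γ'⁻¹ • toHol N x : HolRing) : ℍ → ℂ) (Fermat.Agent.S23.utGL 1 (b : ℤ) ℓ • τ) := by
      rw [HolRing.inv_smul_apply]
      rfl
    rw [e2, smul_toHol_of_mem_Gamma0 N γ'⁻¹ (inv_mem hγ') x]
  rw [hfun]
  have hg' : ∀ τ : ℍ, ((Fermat.Agent.S23.utGL 1 (b : ℤ) ℓ • τ : ℍ) : ℂ) =
      (((1 : ℕ) : ℂ) * τ + (((b : ℤ)) : ℂ)) / ((ℓ : ℕ) : ℂ) := fun τ => by
    rw [Fermat.Agent.S23.coe_utGL_smul one_ne_zero (NeZero.ne ℓ)]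
  have hζc : (iotaBar ((ζ₀ ^ b : Qbˣ) : Qb)) ≠ 0 := by
    rw [map_ne_zero]
    exact Units.ne_zero _
  have h1 := HasCuspExp.comp_affine one_ne_zero (NeZero.ne ℓ) (b : ℤ)
    (Fermat.Agent.S23.utGL 1 (b : ℤ) ℓ) hg'
    (hasCuspExp_toHol N x) (Units.mk0 _ hζc) (by
      rw [Units.val_mk0, Units.val_pow_eq_pow_val, map_pow, hζ₀, ← Complex.exp_nat_mul]
      congr 1
      push_cast
      ring)
  rw [qExpand_one_apply, gcje_rotLaurent_coeffMap (ζ₀ ^ b) _ (Units.val_mk0 _)] at h1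
  have h2 := h1.qExpand N
  rw [mul_comm] at h2
  exact h2

end Fermat.Agent.G
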