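import Mathlib
import Fermat.Agent.S23.UNStab

/-!
# Program G, package G/Conj : leaf (L4) `gcj_exists_reps`

Explicit representatives `ξ_b ∈ Γ₀(N)`, `b ∈ ℕ`, of the nontrivial cosets of `Γ₀(N ℓ)` in `Γ₀(N)`:
`ξ_b⁻¹ = (1, b+n; N, N b + ℓ m)`, `γ' = (ℓ, n; N, m)`, `ℓ m - N n = 1`.
Statement VERBATIM from `G/Conj/LeafSpec.lean` (origin/helper19 9852136).
-/

set_option autoImplicit false
set_option linter.unusedSectionVars false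
set_option linter.unusedVariables false

noncomputable section

namespace Fermat.Agent.G

open UpperHalfPlane
open scoped MatrixGroups Real

variable (N ℓ : ℕ) [NeZero N] [NeZero ℓ]

/-- Bezout: `ℓ m - N n = 1` for coprime `ℓ`, `N`. -/
theorem gcjr_exists_bezout {N ℓ : ℕ} (hℓN : Nat.Coprime ℓ N) :
    ∃ m n : ℤ, (ℓ : ℤ) * m - (N : ℤ) * n = 1 := by
  have h : IsCoprime (ℓ : ℤ) (N : ℤ) := Nat.isCoprime_iff_coprime.mpr hℓN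
  obtain ⟨u, v, huv⟩ := h
  exact ⟨u, -v, by linear_combination huv⟩

/-- The matrix `γ' = (ℓ, n; N, m)`. -/
def gcjrGamma (N ℓ : ℕ) (m n : ℤ) (h : (ℓ : ℤ) * m - (N : ℤ) * n = 1) : SL(2, ℤ) :=
  ⟨!![(ℓ : ℤ), n; (N : ℤ), m], by rw [Matrix.det_fin_two_of]; linear_combination h⟩

/-- The matrix `η_b = (1, b+n; N, N b + ℓ m)`. -/
def gcjrEta (N ℓ : ℕ) (m n : ℤ) (h : (ℓ : ℤ) * m - (N : ℤ) * n = 1) (b : ℕ) : SL(2, ℤ) :=
  ⟨!![1, (b : ℤ) + n; (N : ℤ), (N : ℤ) * b + ℓ * m], by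
    rw [Matrix.det_fin_two_of]; linear_combination h⟩

theorem gcjr_mem_Gamma0_iff (M : ℕ) (g : SL(2, ℤ)) :
    g ∈ CongruenceSubgroup.Gamma0 M ↔ (M : ℤ) ∣ g 1 0 := by
  rw [CongruenceSubgroup.Gamma0_mem, ZMod.intCast_zmod_eq_zero_iff_dvd]

/-- (L4) explicit representatives `ξ_b ∈ Γ₀(N)`, `b ∈ ℕ`, of the nontrivial cosets of
`Γ₀(N ℓ)` in `Γ₀(N)`: `ξ_b⁻¹ = (1, b+n; N, N b + ℓ m)`, `γ' = (ℓ, n; N, m)`, `ℓ m - N n = 1`. -/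
theorem gcj_exists_reps (hℓ1 : 1 < ℓ) (hℓN : Nat.Coprime ℓ N) :
    ∃ (ξ : ℕ → SL(2, ℤ)) (γ' : SL(2, ℤ)), γ' ∈ CongruenceSubgroup.Gamma0 N ∧
      (∀ b, ξ b ∈ CongruenceSubgroup.Gamma0 N) ∧
      (∀ b : ℕ, Fermat.Agent.S23.utGL ℓ 0 1 * Matrix.SpecialLinearGroup.mapGL ℝ (ξ b)⁻¹ =
        Matrix.SpecialLinearGroup.mapGL ℝ γ' * Fermat.Agent.S23.utGL 1 (b : ℤ) ℓ) ∧
      (∀ b, ξ b ∉ CongruenceSubgroup.Gamma0 (N * ℓ)) ∧
      (∀ b b' : ℕ, (ξ b)⁻¹ * ξ b' ∈ CongruenceSubgroup.Gamma0 (N * ℓ) →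
        (ℓ : ℤ) ∣ (b : ℤ) - b') := by
  obtain ⟨m, n, h⟩ := gcjr_exists_bezout hℓN
  have hN0 : (N : ℤ) ≠ 0 := by exact_mod_cast NeZero.ne N
  have hℓ0 : ℓ ≠ 0 := NeZero.ne ℓ
  refine ⟨fun b => (gcjrEta N ℓ m n h b)⁻¹, gcjrGamma N ℓ m n h, ?_, ?_, ?_, ?_, ?_⟩
  · rw [gcjr_mem_Gamma0_iff]
    simp [gcjrGamma]
  · intro b
    apply Subgroup.inv_mem
    rw [gcjr_mem_Gamma0_iff]
    simp [gcjrEta]
  · intro b
    rw [inv_inv]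
    apply Matrix.GeneralLinearGroup.ext
    intro i j
    simp only [Matrix.GeneralLinearGroup.coe_mul, Fermat.Agent.S23.val_utGL hℓ0 one_ne_zero,
      Fermat.Agent.S23.val_utGL one_ne_zero hℓ0, Matrix.mul_apply, Fin.sum_univ_two,
      Fermat.Agent.S23.unstab_mapGL_apply]
    fin_cases i <;> fin_cases j <;> simp [gcjrEta, gcjrGamma] <;> ring
  · intro b hb
    rw [gcjr_mem_Gamma0_iff] at hb
    have h10 : ((gcjrEta N ℓ m n h b)⁻¹ : SL(2, ℤ)) 1 0 = -(N : ℤ) := by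
      rw [Matrix.SpecialLinearGroup.SL2_inv_expl]
      simp [gcjrEta]
    rw [h10] at hb
    have hd : ((N : ℤ) * (ℓ : ℤ)) ∣ (N : ℤ) * 1 := by
      have := (dvd_neg.mp hb)
      simpa using this
    have hℓd : (ℓ : ℤ) ∣ 1 := (mul_dvd_mul_iff_left hN0).mp hd
    have : ℓ ∣ 1 := by exact_mod_cast hℓd
    have := Nat.le_of_dvd one_pos this
    omega
  · intro b b' hbb
    rw [inv_inv, gcjr_mem_Gamma0_iff] at hbb
    have h10 : ((gcjrEta N ℓ m n h b) * (gcjrEta N ℓ m n h b')⁻¹ : SL(2, ℤ)) 1 0 =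
        (N : ℤ) * ((N : ℤ) * ((b' : ℤ) - b)) := by
      rw [Matrix.SpecialLinearGroup.SL2_inv_expl]
      simp [gcjrEta, Matrix.mul_apply, Fin.sum_univ_two]
      ring
    rw [h10] at hbb
    have hcast : ((N * ℓ : ℕ) : ℤ) = (N : ℤ) * (ℓ : ℤ) := by push_cast; ring
    rw [hcast] at hbb
    have h1 : (ℓ : ℤ) ∣ (N : ℤ) * ((b' : ℤ) - b) := (mul_dvd_mul_iff_left hN0).mp hbb
    have hcop : IsCoprime (ℓ : ℤ) (N : ℤ) := Nat.isCoprime_iff_coprime.mpr hℓN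
    have h2 : (ℓ : ℤ) ∣ (b' : ℤ) - b := hcop.dvd_of_dvd_mul_left h1
    have : (b : ℤ) - b' = -((b' : ℤ) - b) := by ring
    rw [this]
    exact (dvd_neg.mpr h2)

end Fermat.Agent.G
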