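import Mathlib
import Fermat.Agent.G.Defs
import Fermat.Agent.G.Conj.Formal
import Fermat.Agent.G.Conj.Exp
import Fermat.Agent.G.Conj.Reps
import Fermat.Agent.G.Conj.Deg
import Fermat.Agent.S24.Degree

/-!
# Program G, package G/Conj : (NS) the norm series identity

`gcj_norm_series` : for `f ∈ F_ℚ̄(N)`, `ℓ ∤ N` prime, `ζ₀` a suitable primitive `ℓ`-th root of unity,
`(N_α (β f))(x^ℓ) = f(x^(ℓ·ℓ)) · ∏_{b<ℓ} f(ζ₀^b x)`.
-/

set_option autoImplicit false
set_option linter.unusedSectionVars false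
set_option linter.unusedVariables false

noncomputable section

namespace Fermat.Agent.G

open ModularCurve AlgebraicCurve Fermat.Agent.S24 UpperHalfPlane
open scoped MatrixGroups Real

local notation "Qb" => AlgebraicClosure ℚ

variable (N ℓ : ℕ) [NeZero N] [NeZero ℓ]

/-- ring homs out of `F(N)` are determined on `RBar N` -/
theorem gcjs_hom_ext {P : Type*} [CommRing P] (j k : modularFunctionFieldBar N →+* P)
    (h : ∀ x : RBar N, j (x : modularFunctionFieldBar N) = k (x : modularFunctionFieldBar N)) :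
    j = k := by
  haveI := isFractionRing_RBar N
  exact IsLocalization.ringHom_ext (nonZeroDivisors (RBar N)) (RingHom.ext h)

/-- the `ℚ̄`-embedding `F(N) → ℚ̄((q))` -/
def gcjsVal : modularFunctionFieldBar N →+* LaurentSeries Qb :=
  (modularFunctionFieldBar N).val.toRingHom

theorem gcjsVal_apply (f : modularFunctionFieldBar N) :
    gcjsVal N f = (f : LaurentSeries Qb) := rfl

/-- (A1) for `ξ ∈ Γ₀(N)`: `σ_ξ ∘ α = qExpand (N ℓ)` -/
theorem gcjs_degLift_alpha (ξ : SL(2, ℤ)) (hξ : ξ ∈ CongruenceSubgroup.Gamma0 N)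
    (f : modularFunctionFieldBar N) :
    degLift (N * ℓ) ξ (heckeAlphaBar Qb N ℓ f) =
      qExpand Qb (N * ℓ) (f : LaurentSeries Qb) := by
  have h := gcjs_hom_ext N
    ((degLift (N * ℓ) ξ).comp (heckeAlphaBar Qb N ℓ).toRingHom)
    ((qExpand Qb (N * ℓ)).comp (gcjsVal N)) (fun x => by
      show degLift (N * ℓ) ξ (heckeAlphaBar Qb N ℓ (x : modularFunctionFieldBar N)) = _
      have h1 := degLift_coe (N * ℓ) ξ ⟨_, gcj_alpha_mem_RBar N ℓ x⟩
      rw [h1]
      exact gcj_cuspHom_alpha N ℓ ξ hξ x)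
  exact RingHom.congr_fun h f

/-- (A2) `σ_1 ∘ β = qExpand (N ℓ ℓ)` -/
theorem gcjs_degLift_beta_one (f : modularFunctionFieldBar N) :
    degLift (N * ℓ) 1 (heckeBetaBar Qb N ℓ f) =
      qExpand Qb (N * ℓ * ℓ) (f : LaurentSeries Qb) := by
  have h := gcjs_hom_ext N
    ((degLift (N * ℓ) 1).comp (heckeBetaBar Qb N ℓ).toRingHom)
    ((qExpand Qb (N * ℓ * ℓ)).comp (gcjsVal N)) (fun x => by
      show degLift (N * ℓ) 1 (heckeBetaBar Qb N ℓ (x : modularFunctionFieldBar N)) = _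
      have h1 := degLift_coe (N * ℓ) 1 ⟨_, gcj_beta_mem_RBar N ℓ x⟩
      rw [h1]
      exact gcj_cuspHom_beta_one N ℓ x)
  exact RingHom.congr_fun h f

/-- (A3) `σ_ξ ∘ β = qExpand N ∘ rot (ζ₀^b)` -/
theorem gcjs_degLift_beta (ζ₀ : Qbˣ)
    (hζ₀ : iotaBar (ζ₀ : Qb) = Complex.exp (2 * π * Complex.I / ℓ))
    (ξ γ' : SL(2, ℤ)) (hγ' : γ' ∈ CongruenceSubgroup.Gamma0 N) (b : ℕ)
    (hmat : Fermat.Agent.S23.utGL ℓ 0 1 * Matrix.SpecialLinearGroup.mapGL ℝ ξ⁻¹ =
      Matrix.SpecialLinearGroup.mapGL ℝ γ' * Fermat.Agent.S23.utGL 1 (b : ℤ) ℓ)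
    (f : modularFunctionFieldBar N) :
    degLift (N * ℓ) ξ (heckeBetaBar Qb N ℓ f) =
      qExpand Qb N (gcjfRot (ζ₀ ^ b) (f : LaurentSeries Qb)) := by
  have h := gcjs_hom_ext N
    ((degLift (N * ℓ) ξ).comp (heckeBetaBar Qb N ℓ).toRingHom)
    (((qExpand Qb N).comp (gcjfRot (ζ₀ ^ b))).comp (gcjsVal N)) (fun x => by
      show degLift (N * ℓ) ξ (heckeBetaBar Qb N ℓ (x : modularFunctionFieldBar N)) = _
      have h1 := degLift_coe (N * ℓ) ξ ⟨_, gcj_beta_mem_RBar N ℓ x⟩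
      rw [h1]
      exact gcj_cuspHom_beta N ℓ ζ₀ hζ₀ ξ γ' hγ' b hmat x)
  exact RingHom.congr_fun h f

/-- distinct cosets give distinct extended expansions -/
theorem gcjs_mem_Gamma0_of_degLift_eq (M : ℕ) [NeZero M] (g g' : SL(2, ℤ))
    (h : degLift M g = degLift M g') : g⁻¹ * g' ∈ CongruenceSubgroup.Gamma0 M := by
  apply mem_Gamma0_of_cuspHom_eq
  ext x : 1
  rw [← degLift_coe, ← degLift_coe, h]

/-- a primitive `ℓ`-th root of unity in `ℚ̄` mapping to `exp(2πi/ℓ)` -/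
theorem gcjs_exists_zeta : ∃ ζ₀ : Qbˣ, IsPrimitiveRoot ζ₀ ℓ ∧
    iotaBar (ζ₀ : Qb) = Complex.exp (2 * π * Complex.I / ℓ) := by
  have hprim : IsPrimitiveRoot (Complex.exp (2 * π * Complex.I / ℓ)) ℓ :=
    Complex.isPrimitiveRoot_exp ℓ (NeZero.ne ℓ)
  obtain ⟨z, hz⟩ := conj_mem_range_iotaBar_of_pow_eq_one (NeZero.ne ℓ) hprim.pow_eq_one
  have hz' : IsPrimitiveRoot z ℓ := by
    refine IsPrimitiveRoot.of_map_of_injective (f := iotaBar) ?_ iotaBar_injective
    rw [hz]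
    exact hprim
  have hz0 : z ≠ 0 := hz'.ne_zero (NeZero.ne ℓ)
  refine ⟨Units.mk0 z hz0, ?_, by rw [Units.val_mk0, hz]⟩
  rw [← IsPrimitiveRoot.coe_units_iff, Units.val_mk0]
  exact hz'

/-- (NS) the norm series identity -/
theorem gcj_norm_series (N : ℕ) [NeZero N] {ℓ : ℕ} [Fact ℓ.Prime] (hℓN : ¬ ℓ ∣ N) :
    haveI : NeZero ℓ := ⟨(Fact.out : ℓ.Prime).ne_zero⟩
    ∃ ζ₀ : (AlgebraicClosure ℚ)ˣ, IsPrimitiveRoot ζ₀ ℓ ∧
      ∀ f : modularFunctionFieldBar N,
        qExpand (AlgebraicClosure ℚ) ℓ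
            ((gHeckeFun N ℓ f : modularFunctionFieldBar N) : LaurentSeries (AlgebraicClosure ℚ)) =
          qExpand (AlgebraicClosure ℚ) (ℓ * ℓ) (f : LaurentSeries _) *
            gcjfProd ℓ ζ₀ (f : LaurentSeries _) := by
  haveI : NeZero ℓ := ⟨(Fact.out : ℓ.Prime).ne_zero⟩
  have hℓ : ℓ.Prime := Fact.out
  obtain ⟨ζ₀, hprim, hζ₀⟩ := gcjs_exists_zeta ℓ
  obtain ⟨ξ, γ', hγ', hξ, hmat, hξnot, hξdvd⟩ :=
    gcj_exists_reps N ℓ hℓ.one_lt ((Nat.Prime.coprime_iff_not_dvd hℓ).2 hℓN)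
  refine ⟨ζ₀, hprim, fun f => ?_⟩
  -- algebra structures
  letI algKL : Algebra (modularFunctionFieldBar N) (modularFunctionFieldBar (N * ℓ)) :=
    algebraAlong (heckeAlphaBar Qb N ℓ)
  letI algKΩ : Algebra (modularFunctionFieldBar N) (LaurentSeries Qb) :=
    ((qExpand Qb (N * ℓ)).comp (gcjsVal N)).toAlgebra
  -- representatives
  let r : Option (Fin ℓ) → SL(2, ℤ) := fun i => i.elim 1 (fun b => ξ b)
  have hr : ∀ i, r i ∈ CongruenceSubgroup.Gamma0 N := by
    intro i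
    cases i with
    | none => exact one_mem _
    | some b => exact hξ b
  let σ : Option (Fin ℓ) →
      (modularFunctionFieldBar (N * ℓ) →ₐ[modularFunctionFieldBar N] LaurentSeries Qb) := fun i =>
    { degLift (N * ℓ) (r i) with
      commutes' := fun f => gcjs_degLift_alpha N ℓ (r i) (hr i) f }
  have hσ : ∀ i y, σ i y = degLift (N * ℓ) (r i) y := fun i y => rfl
  have hinj : Function.Injective σ := by
    intro i j hij
    have h1 : degLift (N * ℓ) (r i) = degLift (N * ℓ) (r j) := by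
      ext y : 1
      rw [← hσ, ← hσ, hij]
    have h2 := gcjs_mem_Gamma0_of_degLift_eq (N * ℓ) _ _ h1
    cases i with
    | none =>
      cases j with
      | none => rfl
      | some b =>
        exfalso
        apply hξnot b
        simpa [r] using h2
    | some b =>
      cases j with
      | none =>
        exfalso
        apply hξnot b
        have h3 : (ξ b)⁻¹ ∈ CongruenceSubgroup.Gamma0 (N * ℓ) := by simpa [r] using h2
        simpa using inv_mem h3
      | some b' =>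
        have h3 : (ℓ : ℤ) ∣ ((b : ℕ) : ℤ) - ((b' : ℕ) : ℤ) := hξdvd b b' (by simpa [r] using h2)
        congr 1
        apply Fin.ext
        have hb := b.2
        have hb' := b'.2
        obtain ⟨c, hc⟩ := h3
        have hc0 : c = 0 := by
          by_contra hne
          rcases lt_or_gt_of_ne hne with hlt | hgt
          · have : (ℓ : ℤ) * c ≤ -(ℓ : ℤ) := by nlinarith
            omega
          · have : (ℓ : ℤ) ≤ (ℓ : ℤ) * c := by nlinarith
            omega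
        rw [hc0, mul_zero] at hc
        omega
  have hfinrank := gcjd_finrank N hℓN
  haveI : FiniteDimensional (modularFunctionFieldBar N) (modularFunctionFieldBar (N * ℓ)) :=
    Module.finite_of_finrank_pos (by rw [hfinrank]; omega)
  have hnorm := gcjf_norm_eq_prod σ hinj
    (by rw [Fintype.card_option, Fintype.card_fin, hfinrank]) (heckeBetaBar Qb N ℓ f)
  have hL : algebraMap (modularFunctionFieldBar N) (LaurentSeries Qb)
      (Algebra.norm (modularFunctionFieldBar N) (heckeBetaBar Qb N ℓ f)) =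
      qExpand Qb (N * ℓ)
        ((gHeckeFun N ℓ f : modularFunctionFieldBar N) : LaurentSeries Qb) := rfl
  rw [hL, Fintype.prod_option] at hnorm
  have h0 : σ none (heckeBetaBar Qb N ℓ f) = qExpand Qb (N * ℓ * ℓ) (f : LaurentSeries Qb) :=
    gcjs_degLift_beta_one N ℓ f
  have h1 : ∀ b : Fin ℓ, σ (some b) (heckeBetaBar Qb N ℓ f) =
      qExpand Qb N (gcjfRot (ζ₀ ^ (b : ℕ)) (f : LaurentSeries Qb)) := fun b =>
    gcjs_degLift_beta N ℓ ζ₀ hζ₀ (ξ b) γ' hγ' b (hmat b) f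
  rw [h0, Finset.prod_congr rfl (fun b _ => h1 b), ← map_prod,
    Fin.prod_univ_eq_prod_range (fun i => gcjfRot (ζ₀ ^ i) (f : LaurentSeries Qb)) ℓ] at hnorm
  have e1 : qExpand Qb (N * ℓ)
      ((gHeckeFun N ℓ f : modularFunctionFieldBar N) : LaurentSeries Qb) =
      qExpand Qb N (qExpand Qb ℓ
        ((gHeckeFun N ℓ f : modularFunctionFieldBar N) : LaurentSeries Qb)) :=
    (qExpand_qExpand ℓ N _).symm
  have e2 : qExpand Qb (N * ℓ * ℓ) (f : LaurentSeries Qb) =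
      qExpand Qb N (qExpand Qb (ℓ * ℓ) (f : LaurentSeries Qb)) := by
    rw [qExpand_qExpand]
    exact qExpand_congr (mul_assoc N ℓ ℓ) _
  rw [e1, e2, ← map_mul] at hnorm
  exact qExpand_injective N hnorm

end Fermat.Agent.G
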