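import Mathlib
import Fermat.Agent.G.Defs
import Fermat.Agent.G.Conj.Formal
import Fermat.Agent.G.Conj.Series
import Fermat.Agent.G.GN
import Fermat.Agent.S18.A.Const

/-!
# Program G, package G/Conj : `gcj_norm_congr` (the Kronecker congruence for norms)

Assembly of `gcj_norm_congr` from
* (NS) `gcj_norm_series` : `(N_α (β f))(x^ℓ) = f(x^(ℓ·ℓ)) · ∏_{b<ℓ} f(ζ₀^b x)` over `ℚ̄`;
* `gcjf_exists_congr` (helper15, `Conj/Formal.lean`) : the formal congruence
  `∏_{b<ℓ} u(ζ^b x) = V(x^ℓ)`, `V ≡ u^φ` modulo the maximal ideal;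
* `ggn_good_of_gen` (helper6, `G/GN.lean`) : an integral series with generic fibre in `F_ℚ̄(N)` is
  good.
-/

set_option autoImplicit false
set_option linter.unusedSectionVars false
set_option linter.unusedVariables false
set_option synthInstance.maxHeartbeats 400000

noncomputable section

namespace Fermat.Agent.G

open ModularCurve AlgebraicCurve IsLocalRing Fermat.Agent.S18

/-- a root of unity of `ℚ̄` lies in every valuation subring, as a unit, with the same order -/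
theorem gcjm_exists_unit (A : ValuationSubring (AlgebraicClosure ℚ)) {n : ℕ} (hn : n ≠ 0)
    (ζ₀ : (AlgebraicClosure ℚ)ˣ) (hζ₀ : IsPrimitiveRoot ζ₀ n) :
    ∃ ζ : Aˣ, IsPrimitiveRoot ζ n ∧ Units.map (A.subtype : A →* AlgebraicClosure ℚ) ζ = ζ₀ := by
  have hpow : (ζ₀ : AlgebraicClosure ℚ) ^ n = 1 := by
    rw [← Units.val_pow_eq_pow_val, hζ₀.pow_eq_one, Units.val_one]
  have hmem : (ζ₀ : AlgebraicClosure ℚ) ∈ A := by
    rcases A.mem_or_inv_mem (ζ₀ : AlgebraicClosure ℚ) with h | h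
    · exact h
    · have h1 : (ζ₀ : AlgebraicClosure ℚ) = (ζ₀ : AlgebraicClosure ℚ)⁻¹ ^ (n - 1) := by
        rw [inv_pow]
        apply eq_inv_of_mul_eq_one_left
        rw [← pow_succ', Nat.sub_add_cancel (Nat.one_le_iff_ne_zero.2 hn), hpow]
      rw [h1]
      exact pow_mem h _
  let z : A := ⟨ζ₀, hmem⟩
  have hz : z ^ n = 1 := Subtype.ext (by simpa using hpow)
  have hzu : IsUnit z := IsUnit.of_pow_eq_one hz hn
  have hmap : Units.map (A.subtype : A →* AlgebraicClosure ℚ) hzu.unit = ζ₀ := Units.ext rfl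
  refine ⟨hzu.unit, ?_, hmap⟩
  have hinj : Function.Injective (Units.map (A.subtype : A →* AlgebraicClosure ℚ)) :=
    Units.map_injective (f := (A.subtype : A →* AlgebraicClosure ℚ)) Subtype.val_injective
  refine IsPrimitiveRoot.of_map_of_injective
    (f := Units.map (A.subtype : A →* AlgebraicClosure ℚ)) ?_ hinj
  rw [hmap]
  exact hζ₀

/-- (KRON-F) KRONECKER CONGRUENCE FOR FUNCTIONS: for a good integral `u` of level `N` (`ℓ ∤ N`),
`N_α (β u) = u(q^ℓ) · ∏_{i<ℓ} u(ζ^i q^{1/ℓ})` (the `ℓ + 1` Puiseux conjugates) has coefficients in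
`𝔸` and reduces to `ū(q^ℓ) · ū^φ(q)`, `φ` = coefficientwise Frobenius of `k`. -/
theorem gcj_norm_congr (N : ℕ) [NeZero N] {ℓ : ℕ} [Fact ℓ.Prime] (hℓN : ¬ ℓ ∣ N)
    (A : ValuationSubring (AlgebraicClosure ℚ)) (hA : A.LiesOverPrime ℓ)
    (φ : ResidueField A →+* ResidueField A) (hφ : ∀ x, φ x = x ^ ℓ)
    (u : LaurentSeries A) (hu : S18Good N A u) :
    haveI : NeZero ℓ := ⟨(Fact.out : ℓ.Prime).ne_zero⟩
    ∃ (U : LaurentSeries A) (hU : S18Good N A U),
      hU.gen = gHeckeFun N ℓ hu.gen ∧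
      coeffMap (residue A) U =
        qExpand (ResidueField A) ℓ (coeffMap (residue A) u) *
          coeffMap φ (coeffMap (residue A) u) := by
  have hℓ0 : ℓ ≠ 0 := (Fact.out : ℓ.Prime).ne_zero
  have : NeZero ℓ := ⟨hℓ0⟩
  obtain ⟨ζ₀, hζ₀, hNS⟩ := gcj_norm_series N hℓN
  obtain ⟨ζ, hζ, hζmap⟩ := gcjm_exists_unit A hℓ0 ζ₀ hζ₀
  have : CharP (ResidueField A) ℓ := s18ac_charP A hA
  obtain ⟨V, hV1, hV2⟩ := gcjf_exists_congr (residue A) ℓ hζ φ hφ u
  -- the generic fibre of `U := u(q^ℓ) · V`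
  have hgen : coeffMap A.subtype (qExpand A ℓ u * V) =
      ((gHeckeFun N ℓ hu.gen : modularFunctionFieldBar N) :
        LaurentSeries (AlgebraicClosure ℚ)) := by
    apply qExpand_injective (R := AlgebraicClosure ℚ) ℓ
    have h1 : qExpand (AlgebraicClosure ℚ) ℓ (coeffMap A.subtype (qExpand A ℓ u)) =
        qExpand (AlgebraicClosure ℚ) (ℓ * ℓ) (coeffMap A.subtype u) := by
      rw [coeffMap_qExpand, qExpand_qExpand]
    have h2 : qExpand (AlgebraicClosure ℚ) ℓ (coeffMap A.subtype V) =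
        gcjfProd ℓ ζ₀ (coeffMap A.subtype u) := by
      rw [← coeffMap_qExpand, hV1, gcjfProd, gcjfProd, map_prod]
      refine Finset.prod_congr rfl fun i _ => ?_
      rw [gcjfRot_coeffMap, map_pow, hζmap]
    rw [hNS hu.gen, map_mul, map_mul, h1, h2]
    rfl
  have hmemU : coeffMap A.subtype (qExpand A ℓ u * V) ∈ modularFunctionFieldBar N := by
    rw [hgen]
    exact (gHeckeFun N ℓ hu.gen).2
  have hU : S18Good N A (qExpand A ℓ u * V) := ggn_good_of_gen N A hℓN hA _ hmemU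
  refine ⟨qExpand A ℓ u * V, hU, Subtype.ext hgen, ?_⟩
  rw [map_mul, coeffMap_qExpand, hV2]

end Fermat.Agent.G
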