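/-
Program G, package G/Conj (prefix gcj): definitions.

* `gcjTwist c` : the ring automorphism `Σ aₙ Qⁿ ↦ Σ aₙ cⁿ Qⁿ` of Laurent series (`Q ↦ c Q`).
* `GcjIsHeckeNorm ℓ ζ f g` : `g(Q^ℓ) = f(Q^(ℓ²)) · ∏_{i<ℓ} f(ζ^i Q)`, i.e. (with `Q = q^(1/ℓ)`)
  `g(q) = f(q^ℓ) · ∏_{i<ℓ} f(ζ^i q^(1/ℓ))` : `g` is the "Hecke norm" of `f`.
-/
import Mathlib
import Fermat.Prelude.Def_ModularCurve_X0
import Fermat.Prelude.Def_ModularCurve_LaurentCoeff

set_option autoImplicit false

noncomputable section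

namespace Fermat.Agent.G

open ModularCurve

variable {R : Type*} [CommRing R]

/-- The underlying function of the twist `Q ↦ c Q`. -/
def gcjTwistFun (c : Rˣ) (f : LaurentSeries R) : LaurentSeries R where
  coeff m := ((c ^ m : Rˣ) : R) * f.coeff m
  isPWO_support' := f.isPWO_support.mono fun m hm => by
    rw [HahnSeries.mem_support]
    exact right_ne_zero_of_mul hm

@[simp] theorem gcjTwistFun_coeff (c : Rˣ) (f : LaurentSeries R) (m : ℤ) :
    (gcjTwistFun c f).coeff m = ((c ^ m : Rˣ) : R) * f.coeff m := rfl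

theorem gcjTwistFun_mem_support (c : Rˣ) (f : LaurentSeries R) (m : ℤ) :
    m ∈ (gcjTwistFun c f).support ↔ m ∈ f.support := by
  rw [HahnSeries.mem_support, HahnSeries.mem_support, gcjTwistFun_coeff]
  constructor
  · exact right_ne_zero_of_mul
  · intro h h0
    apply h
    have := congrArg (fun x => (((c ^ m)⁻¹ : Rˣ) : R) * x) h0
    simpa [← mul_assoc] using this

/-- The twist `Q ↦ c Q` of Laurent series: the coefficient of `Q^m` is multiplied by `c^m`. -/
def gcjTwist (c : Rˣ) : LaurentSeries R →+* LaurentSeries R where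
  toFun := gcjTwistFun c
  map_one' := by
    ext a
    rw [gcjTwistFun_coeff, HahnSeries.coeff_one]
    split_ifs with h
    · subst h; simp
    · simp
  map_mul' x y := by
    ext a
    rw [gcjTwistFun_coeff, HahnSeries.coeff_mul, HahnSeries.coeff_mul, Finset.mul_sum]
    refine Finset.sum_congr ?_ ?_
    · ext ij
      simp only [Finset.mem_antidiagonal, gcjTwistFun_mem_support]
    · intro ij hij
      rw [Finset.mem_antidiagonal] at hij
      rw [gcjTwistFun_coeff, gcjTwistFun_coeff, ← hij.2.2, zpow_add, Units.val_mul]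
      ring
  map_zero' := by
    ext a
    simp
  map_add' x y := by
    ext a
    simp [mul_add]

@[simp] theorem gcjTwist_coeff (c : Rˣ) (f : LaurentSeries R) (m : ℤ) :
    (gcjTwist c f).coeff m = ((c ^ m : Rˣ) : R) * f.coeff m := rfl

/-- `g` is the Hecke norm of `f` : `g(Q^ℓ) = f(Q^(ℓ²)) · ∏_{i<ℓ} f(ζ^i Q)`. -/
def GcjIsHeckeNorm (ℓ : ℕ) [NeZero ℓ] (ζ : Rˣ) (f g : LaurentSeries R) : Prop :=
  qExpand R ℓ g = qExpand R (ℓ * ℓ) f * ∏ i ∈ Finset.range ℓ, gcjTwist (ζ ^ i) f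

end Fermat.Agent.G
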