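/-
Program G, package G/Conj, leaf (C1e): the mod-`ℓ` function field `F_k(N)` is stable under
coefficientwise ring endomorphisms of `k`.
-/
import Mathlib
import Fermat.Prelude.Def_ModularCurve_X0ModL

set_option autoImplicit false

noncomputable section

namespace Fermat.Agent.G

open ModularCurve HahnSeries IntermediateField

/-- (C1e) `F_k(N)` is stable under `coeffMap σ` for every ring endomorphism `σ` of `k`. -/
theorem gcj_coeffMap_mem_fullC {k : Type*} [Field k] (N : ℕ) [NeZero N] (σ : k →+* k)
    {x : LaurentSeries k} (hx : x ∈ modularFunctionFieldFullC k N) :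
    coeffMap σ x ∈ modularFunctionFieldFullC k N := by
  have hx' : x ∈ Subfield.closure
      (Set.range (algebraMap k (LaurentSeries k)) ∪ divisorExpansionsC k N) := hx
  clear hx
  rename' hx' => hx
  induction hx using Subfield.closure_induction with
  | mem y hy =>
      rcases hy with ⟨a, rfl⟩ | ⟨d, hd, hdN, rfl⟩
      · rw [coeffMap_algebraMap]
        exact (modularFunctionFieldFullC k N).algebraMap_mem _
      · have := hd
        rw [coeffMap_qExpand, coeffMap_jqModC]
        exact jqModCd_mem_full k N hdN
  | one => simp
  | add x y _ _ hx hy => simpa using add_mem hx hy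
  | neg x _ hx => simpa using neg_mem hx
  | inv x _ hx => simpa using inv_mem hx
  | mul x y _ _ hx hy => simpa using mul_mem hx hy

end Fermat.Agent.G
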